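/-
S24, block CL (owner helper144): prime avoidance in the integral closure of `K[t]`.
-/
import Fermat.Agent.S24.FFSum

set_option autoImplicit false
set_option linter.style.haveILetI false

namespace Fermat.Agent.S24.CL

open AlgebraicCurve IsDedekindDomain IntermediateField Polynomial FF
open scoped IntermediateField.algebraAdjoinAdjoin

variable {K F : Type*} [Field K] [Field F] [Algebra K F] [CharZero K] [IsAlgClosed K] [IsFF1 K F]

/-- Given a place `v` and finitely many other places, all regular at `t`, there is an element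
integral over `K[t]`, vanishing at `v`, and a unit at the other places. -/
theorem exists_integral_approx (t : F) (ht : Transcendental K t)
    (v : Place K F) (hv : 0 ≤ v.ord t) (T : Finset (Place K F)) (hT : ∀ w ∈ T, 0 ≤ w.ord t)
    (hvT : v ∉ T) :
    ∃ f : F, IsIntegral (Algebra.adjoin K {t}) f ∧ 0 < v.ord f ∧ ∀ w ∈ T, w.ord f = 0 := by
  classical
  haveI : FiniteDimensional K⟮t⟯ F := IsFF1.finite t ht
  haveI := isPrincipalIdealRing_adjoin t ht
  haveI : CharZero K⟮t⟯ := charZero_of_injective_algebraMap (algebraMap K K⟮t⟯).injective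
  haveI : IsDedekindDomain (integralClosure (Algebra.adjoin K {t}) F) :=
    integralClosure.isDedekindDomain (Algebra.adjoin K {t}) K⟮t⟯ F
  haveI : IsFractionRing (integralClosure (Algebra.adjoin K {t}) F) F :=
    integralClosure.isFractionRing_of_finite_extension K⟮t⟯ F
  set B := integralClosure (Algebra.adjoin K {t}) F with hBdef
  have hB : ∀ w : Place K F, 0 ≤ w.ord t → ∀ b : B, algebraMap B F b ∈ w.toValuationSubring :=
    fun w hw b => mem_of_isIntegral w _ (adjoin_le_of_ord_nonneg w hw) b.2
  let P : Place K F → Ideal B := fun w =>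
    if hw : 0 ≤ w.ord t then (primeOfPlace w (hB w hw)).asIdeal else ⊤
  have hP : ∀ w (hw : 0 ≤ w.ord t), P w = (primeOfPlace w (hB w hw)).asIdeal := fun w hw =>
    dif_pos hw
  -- an element of `P v` outside all `P w`
  have key : ∃ b : B, b ∈ P v ∧ b ≠ 0 ∧ ∀ w ∈ T, b ∉ P w := by
    rcases T.eq_empty_or_nonempty with rfl | hne
    · obtain ⟨b, hb, hb0⟩ := Submodule.exists_mem_ne_zero_of_ne_bot (primeOfPlace v (hB v hv)).ne_bot
      exact ⟨b, by rw [hP v hv]; exact hb, hb0, by simp⟩
    · by_contra hcon
      push Not at hcon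
      have hsub : ((P v : Ideal B) : Set B) ⊆ ⋃ w ∈ (↑T : Set (Place K F)), (P w : Set B) := by
        intro b hb
        rcases eq_or_ne b 0 with rfl | hb0
        · obtain ⟨w, hw⟩ := hne
          exact Set.mem_biUnion hw (zero_mem _)
        · obtain ⟨w, hw, hbw⟩ := hcon b hb hb0
          exact Set.mem_biUnion hw hbw
      obtain ⟨w, hw, hle⟩ := (Ideal.subset_union_prime v v (fun w hw _ _ => by
        rw [hP w (hT w hw)]; exact (primeOfPlace w (hB w (hT w hw))).isPrime)).mp hsub
      rw [hP v hv, hP w (hT w hw)] at hle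
      have heq : (primeOfPlace v (hB v hv)).asIdeal = (primeOfPlace w (hB w (hT w hw))).asIdeal :=
        (primeOfPlace v (hB v hv)).isMaximal.eq_of_le
          (primeOfPlace w (hB w (hT w hw))).isPrime.ne_top hle
      have heq' : primeOfPlace v (hB v hv) = primeOfPlace w (hB w (hT w hw)) :=
        HeightOneSpectrum.ext heq
      have : v = w := by
        rw [← ofHeightOneSpectrum_primeOfPlace v (hB v hv), heq',
          ofHeightOneSpectrum_primeOfPlace w (hB w (hT w hw))]
      exact hvT (this ▸ hw)
  obtain ⟨b, hbv, hb0, hbT⟩ := key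
  refine ⟨algebraMap B F b, b.2, ?_, fun w hw => ?_⟩
  · rw [hP v hv, mem_primeOfPlace_iff] at hbv
    exact hbv.resolve_left hb0
  · have h1 := hbT w hw
    rw [hP w (hT w hw), mem_primeOfPlace_iff, not_or, not_lt] at h1
    have h2 := ord_nonneg_of_mem w (hB w (hT w hw) b)
    omega

end Fermat.Agent.S24.CL
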