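/-
S24, block CL (owner helper24): the degree of `F` over `K(x)` from an abstract uniformisation.
-/
import Fermat.Agent.S24.Defs

set_option autoImplicit false
set_option linter.style.haveILetI false

namespace Fermat.Agent.S24.CL

open IntermediateField Polynomial

variable {K F L G : Type*} [Field K] [Field F] [Algebra K F] [Field L] [Algebra K L]
  [Group G] [MulSemiringAction G L]

section Conj

variable {x : F} {H : Subgroup G} {Ψ : F →ₐ[K] L}

/-- The conjugate embeddings `g • Ψ`, indexed by the left cosets `g H`. -/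
noncomputable def conj (hU : IsUniformization x H Ψ) (q : G ⧸ H) : F →+* L :=
  Quotient.liftOn' q (fun g => (MulSemiringAction.toRingHom G L g).comp (Ψ : F →+* L))
    (fun a b hab => by
      ext f
      have hab' : a⁻¹ * b ∈ H := QuotientGroup.leftRel_apply.mp hab
      have h := hU.smul_of_mem _ hab' f
      show a • Ψ f = b • Ψ f
      conv_lhs => rw [← h, smul_smul, mul_inv_cancel_left])

variable (hU : IsUniformization x H Ψ)
include hU

@[simp]
theorem conj_mk (g : G) (f : F) : conj hU (g : G ⧸ H) f = g • Ψ f := rfl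

theorem smul_conj (g : G) (q : G ⧸ H) (f : F) : g • conj hU q f = conj hU (g • q) f := by
  induction q using QuotientGroup.induction_on with
  | H a => 
    show g • a • Ψ f = (g * a) • Ψ f
    rw [smul_smul]

theorem conj_one (f : F) : conj hU ((1 : G) : G ⧸ H) f = Ψ f := by
  rw [conj_mk, one_smul]

theorem conj_algebraMap (q : G ⧸ H) (c : K) :
    conj hU q (algebraMap K F c) = algebraMap K L c := by
  induction q using QuotientGroup.induction_on with
  | H a => rw [conj_mk, AlgHom.commutes, hU.smul_algebraMap]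

theorem smul_of_mem_adjoin (g : G) {r : F} (hr : r ∈ K⟮x⟯) : g • Ψ r = Ψ r := by
  induction hr using IntermediateField.adjoin_induction with
  | mem y hy => 
    rw [Set.mem_singleton_iff] at hy
    subst hy
    exact hU.smul_x g
  | algebraMap c => rw [AlgHom.commutes, hU.smul_algebraMap]
  | add a b _ _ ha hb => rw [map_add, smul_add, ha, hb]
  | inv a _ ha => rw [map_inv₀, smul_inv'', ha]
  | mul a b _ _ ha hb => rw [map_mul, smul_mul', ha, hb]

theorem conj_of_mem_adjoin (q : G ⧸ H) {r : F} (hr : r ∈ K⟮x⟯) : conj hU q r = Ψ r := by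
  induction q using QuotientGroup.induction_on with
  | H a => rw [conj_mk, smul_of_mem_adjoin hU a hr]

theorem conj_injective : Function.Injective (conj hU) := by
  intro q q' h
  induction q using QuotientGroup.induction_on with
  | H a =>
  induction q' using QuotientGroup.induction_on with
  | H b =>
    rw [QuotientGroup.eq]
    apply hU.mem_of_smul
    intro f
    have := congrArg (fun φ : F →+* L => φ f) h
    simp only [conj_mk] at this
    rw [mul_smul, ← this, inv_smul_smul]

omit hU in
/-- The structure map `K(x) → L`. -/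
noncomputable def baseHom (x : F) (Ψ : F →ₐ[K] L) : K⟮x⟯ →+* L :=
  (Ψ : F →+* L).comp (algebraMap K⟮x⟯ F)

variable [Fintype (G ⧸ H)]

/-- `∏ (X - g • Ψ f)` over the cosets. -/
noncomputable def conjPoly (f : F) : L[X] := ∏ q : G ⧸ H, (X - C (conj hU q f))

theorem conjPoly_monic (f : F) : (conjPoly hU f).Monic :=
  monic_prod_of_monic _ _ fun _ _ => monic_X_sub_C _

theorem conjPoly_natDegree (f : F) : (conjPoly hU f).natDegree = Fintype.card (G ⧸ H) := by
  rw [conjPoly, natDegree_prod_of_monic _ _ fun _ _ => monic_X_sub_C _]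
  simp

theorem smul_conjPoly (g : G) (f : F) : g • conjPoly hU f = conjPoly hU f := by
  rw [conjPoly, Finset.smul_prod']
  refine Fintype.prod_bijective _ (MulAction.bijective g) _ _ fun q => ?_
  rw [smul_sub, Polynomial.smul_X, Polynomial.smul_C, smul_conj]

theorem conjPoly_eval (f : F) : (conjPoly hU f).eval (Ψ f) = 0 := by
  rw [conjPoly, eval_prod]
  refine Finset.prod_eq_zero (Finset.mem_univ ((1 : G) : G ⧸ H)) ?_
  rw [conj_one]
  simp

/-- The polynomial `∏ (X - g • Ψ f)` descends to `K(x)`. -/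
theorem exists_poly (f : F) : ∃ p : K⟮x⟯[X], p.Monic ∧ p.natDegree = Fintype.card (G ⧸ H) ∧
    p.map (baseHom x Ψ) = conjPoly hU f ∧ aeval f p = 0 := by
  have hl : conjPoly hU f ∈ Polynomial.lifts (baseHom x Ψ) := by
    rw [Polynomial.lifts_iff_coeff_lifts]
    intro n
    obtain ⟨r, hr, hr'⟩ := hU.invariants ((conjPoly hU f).coeff n) (fun g => by
      rw [← Polynomial.coeff_smul, smul_conjPoly])
    exact ⟨⟨r, hr⟩, hr'⟩
  obtain ⟨p, hp, hdeg, hmon⟩ := Polynomial.lifts_and_natDegree_eq_and_monic hl (conjPoly_monic hU f)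
  refine ⟨p, hmon, by rw [hdeg, conjPoly_natDegree], hp, ?_⟩
  apply (Ψ : F →+* L).injective
  rw [map_zero]
  have h1 : (Ψ : F →+* L) (aeval f p) = (p.map (baseHom x Ψ)).eval (Ψ f) := by
    rw [aeval_def, Polynomial.hom_eval₂, eval_map]
    rfl
  rw [h1, hp, conjPoly_eval]

theorem isIntegral (f : F) : IsIntegral K⟮x⟯ f := by
  obtain ⟨p, hmon, -, -, h0⟩ := exists_poly hU f
  exact ⟨p, hmon, h0⟩

end Conj

theorem finiteDimensional_of_isUniformization {x : F} {H : Subgroup G} [H.FiniteIndex]
    {Ψ : F →ₐ[K] L} (hU : IsUniformization x H Ψ)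
    (hfg : ∃ s : Finset F, IntermediateField.adjoin K (s : Set F) = ⊤) :
    FiniteDimensional K⟮x⟯ F := by
  obtain ⟨s, hs⟩ := hfg
  haveI : Fintype (G ⧸ H) := Fintype.ofFinite _
  have h1 : FiniteDimensional K⟮x⟯ (IntermediateField.adjoin K⟮x⟯ (s : Set F)) :=
    finiteDimensional_adjoin (fun y _ => isIntegral hU y)
  have h2 : IntermediateField.adjoin K⟮x⟯ (s : Set F) = ⊤ := by
    rw [← IntermediateField.restrictScalars_eq_top_iff (K := K), IntermediateField.adjoin_adjoin_left,
      eq_top_iff, ← hs]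
    exact IntermediateField.adjoin.mono _ _ _ Set.subset_union_right
  rw [h2] at h1
  exact (IntermediateField.topEquiv (F := K⟮x⟯) (E := F)).toLinearEquiv.finiteDimensional

theorem finrank_le_index [CharZero K] {x : F} {H : Subgroup G} [H.FiniteIndex]
    {Ψ : F →ₐ[K] L} (hU : IsUniformization x H Ψ) [FiniteDimensional K⟮x⟯ F] :
    Module.finrank K⟮x⟯ F ≤ H.index := by
  haveI : Fintype (G ⧸ H) := Fintype.ofFinite _
  haveI : CharZero K⟮x⟯ := charZero_of_injective_algebraMap (algebraMap K K⟮x⟯).injective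
  obtain ⟨θ, hθ⟩ := Field.exists_primitive_element K⟮x⟯ F
  obtain ⟨p, hmon, hdeg, -, h0⟩ := exists_poly hU θ
  have h1 : Module.finrank K⟮x⟯ F = (minpoly K⟮x⟯ θ).natDegree := by
    rw [← IntermediateField.adjoin.finrank (isIntegral hU θ), hθ, IntermediateField.finrank_top']
  rw [h1, Subgroup.index, Nat.card_eq_fintype_card, ← hdeg]
  exact natDegree_le_of_dvd (minpoly.dvd _ _ h0) hmon.ne_zero

theorem index_le_finrank {x : F} {H : Subgroup G} [H.FiniteIndex]
    {Ψ : F →ₐ[K] L} (hU : IsUniformization x H Ψ) [FiniteDimensional K⟮x⟯ F] :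
    H.index ≤ Module.finrank K⟮x⟯ F := by
  haveI : Fintype (G ⧸ H) := Fintype.ofFinite _
  letI : Algebra K⟮x⟯ L := (baseHom x Ψ).toAlgebra
  let e : G ⧸ H → (F →ₐ[K⟮x⟯] L) := fun q =>
    { conj hU q with commutes' := fun r => conj_of_mem_adjoin hU q r.2 }
  have he : Function.Injective e := by
    intro q q' h
    apply conj_injective hU
    ext f
    exact congrArg (fun φ : F →ₐ[K⟮x⟯] L => φ f) h
  have h1 := Fintype.card_le_of_injective e he
  have h2 := cardinalMk_algHom K⟮x⟯ F L
  have h3 : Module.finrank L (F →ₗ[K⟮x⟯] L) = Module.finrank K⟮x⟯ F :=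
    Module.finrank_linearMap_self K⟮x⟯ L F
  rw [h3, Cardinal.mk_fintype] at h2
  rw [Subgroup.index, Nat.card_eq_fintype_card]
  exact h1.trans (by exact_mod_cast h2)

theorem finrank_eq_index' [CharZero K] {x : F} {H : Subgroup G} [H.FiniteIndex]
    {Ψ : F →ₐ[K] L} (hU : IsUniformization x H Ψ) [FiniteDimensional K⟮x⟯ F] :
    Module.finrank K⟮x⟯ F = H.index :=
  le_antisymm (finrank_le_index hU) (index_le_finrank hU)

end Fermat.Agent.S24.CL
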