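/-
S24, block CL (owner helper144): a nontrivial `ℤ`-valued valuation, trivial on constants,
defines a place, and is a positive multiple of its normalised order function.
-/
import Fermat.Agent.S24.FFBasic

set_option autoImplicit false

namespace Fermat.Agent.S24.CL

open AlgebraicCurve Valuation MonoidWithZeroHom
open scoped WithZero

variable {K F : Type*} [Field K] [Field F] [Algebra K F]

/-- The place attached to a nontrivial `ℤ`-valued valuation which is trivial on constants. -/
noncomputable def placeOfValuation (W : Valuation F ℤᵐ⁰)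
    (hK : ∀ a : K, a ≠ 0 → W (algebraMap K F a) = 1) (hnt : ∃ f, f ≠ 0 ∧ W f < 1) :
    Place K F where
  toValuationSubring := W.valuationSubring
  algebraMap_mem' a := by
    rw [Valuation.mem_valuationSubring_iff]
    rcases eq_or_ne a 0 with rfl | ha
    · simp
    · exact (hK a ha).le
  ne_top' := by
    obtain ⟨f, hf0, hf⟩ := hnt
    intro htop
    have hmem : f⁻¹ ∈ W.valuationSubring := htop ▸ ValuationSubring.mem_top _
    rw [Valuation.mem_valuationSubring_iff, map_inv₀] at hmem
    have hWf : W f ≠ 0 := (Valuation.ne_zero_iff W).mpr hf0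
    have h1 : 1 ≤ W f := by
      have := mul_le_mul_left hmem (W f)
      rwa [inv_mul_cancel₀ hWf, one_mul] at this
    exact absurd hf (not_lt.mpr h1)
  isPrincipalIdealRing' := by
    obtain ⟨f, hf0, hf⟩ := hnt
    have hWf : W f ≠ 0 := (Valuation.ne_zero_iff W).mpr hf0
    have : Nontrivial (valueGroup (.ofClass W)) := by
      refine ⟨⟨⟨Units.mk0 (W f) hWf, mem_valueGroup _ ⟨f, rfl⟩⟩, 1, ?_⟩⟩
      intro h
      have h' := congrArg (fun u : valueGroup (.ofClass W) => ((u : (ℤᵐ⁰)ˣ) : ℤᵐ⁰)) h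
      simp only [Units.val_mk0, OneMemClass.coe_one, Units.val_one] at h'
      exact hf.ne h'
    exact valuationSubring_isPrincipalIdealRing W

theorem placeOfValuation_toValuationSubring (W : Valuation F ℤᵐ⁰)
    (hK : ∀ a : K, a ≠ 0 → W (algebraMap K F a) = 1) (hnt : ∃ f, f ≠ 0 ∧ W f < 1) :
    (placeOfValuation W hK hnt).toValuationSubring = W.valuationSubring := rfl

theorem exists_mul_ord_placeOfValuation (W : Valuation F ℤᵐ⁰)
    (hK : ∀ a : K, a ≠ 0 → W (algebraMap K F a) = 1) (hnt : ∃ f, f ≠ 0 ∧ W f < 1) :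
    ∃ m : ℕ, 0 < m ∧ ∀ f : F, f ≠ 0 →
      W f = WithZero.exp (-((m : ℤ) * (placeOfValuation W hK hnt).ord f)) := by
  obtain ⟨m, hm, h⟩ := FF.exists_eq_mul_ord (placeOfValuation W hK hnt)
    (fun f => -(WithZero.log (W f)))
    (fun f g hf hg => by
      have hf' : W f ≠ 0 := (Valuation.ne_zero_iff W).mpr hf
      have hg' : W g ≠ 0 := (Valuation.ne_zero_iff W).mpr hg
      simp only [map_mul]
      rw [WithZero.log_mul hf' hg']
      ring)
    (fun f hf => by
      have hf' : W f ≠ 0 := (Valuation.ne_zero_iff W).mpr hf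
      rw [placeOfValuation_toValuationSubring, Valuation.mem_valuationSubring_iff,
        ← WithZero.log_le_log hf' one_ne_zero, WithZero.log_one]
      omega)
  refine ⟨m.toNat, by omega, fun f hf => ?_⟩
  have hf' : W f ≠ 0 := (Valuation.ne_zero_iff W).mpr hf
  rw [Int.toNat_of_nonneg hm.le, ← h f hf, neg_neg, WithZero.exp_log hf']

theorem exists_place_of_valuation (W : Valuation F ℤᵐ⁰)
    (hK : ∀ a : K, a ≠ 0 → W (algebraMap K F a) = 1) (hnt : ∃ f, f ≠ 0 ∧ W f < 1) :
    ∃ (v : Place K F) (m : ℕ), 0 < m ∧ ∀ f : F, f ≠ 0 →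
      W f = WithZero.exp (-((m : ℤ) * v.ord f)) :=
  ⟨placeOfValuation W hK hnt, exists_mul_ord_placeOfValuation W hK hnt⟩

end Fermat.Agent.S24.CL
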