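/-
S24, block CL (owner helper144): completeness.  Every place of `F` above the point `y = 0` of the
base is one of the places `V ∘ (conj q)`.
-/
import Fermat.Agent.S24.CL.Degree
import Fermat.Agent.S24.CL.PlaceOfVal
import Fermat.Agent.S24.CL.Approx

set_option autoImplicit false
set_option linter.style.haveILetI false
set_option linter.unusedSectionVars false

namespace Fermat.Agent.S24.CL

open AlgebraicCurve IntermediateField Polynomial FF
open scoped WithZero IntermediateField.algebraAdjoinAdjoin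

variable {K F L G : Type*} [Field K] [Field F] [Algebra K F] [Field L] [Algebra K L]
  [Group G] [MulSemiringAction G L]

variable {x y : F} {H : Subgroup G} {Ψ : F →ₐ[K] L} {V : Valuation L ℤᵐ⁰} {δ : G} {E : ℕ}

/-- The valuation `V ∘ conj q` on `F`. -/
noncomputable def conjVal (hU : IsUniformization x H Ψ) (V : Valuation L ℤᵐ⁰) (q : G ⧸ H) :
    Valuation F ℤᵐ⁰ := V.comap (conj hU q)

theorem conjVal_apply (hU : IsUniformization x H Ψ) (q : G ⧸ H) (f : F) :
    conjVal hU V q f = V (conj hU q f) := rfl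

theorem conjVal_algebraMap (hU : IsUniformization x H Ψ) (hP : IsPointDatum Ψ y V δ E)
    (q : G ⧸ H) (a : K) (ha : a ≠ 0) : conjVal hU V q (algebraMap K F a) = 1 := by
  rw [conjVal_apply, conj_algebraMap, hP.V_algebraMap a ha]

theorem y_mem (hy : K⟮y⟯ = K⟮x⟯) : y ∈ K⟮x⟯ := hy ▸ mem_adjoin_simple_self K y

theorem conjVal_y (hU : IsUniformization x H Ψ) (hy : K⟮y⟯ = K⟮x⟯)
    (hP : IsPointDatum Ψ y V δ E) (q : G ⧸ H) :
    conjVal hU V q y = WithZero.exp (-(E : ℤ)) := by
  rw [conjVal_apply, conj_of_mem_adjoin hU q (y_mem hy), hP.V_y]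

theorem exp_neg_E_lt_one (hP : IsPointDatum Ψ y V δ E) :
    (WithZero.exp (-(E : ℤ)) : ℤᵐ⁰) < 1 := by
  rw [← WithZero.exp_zero, WithZero.exp_lt_exp]
  have := hP.E_pos
  omega

theorem y_ne_zero (hP : IsPointDatum Ψ y V δ E) : y ≠ 0 := by
  rintro rfl
  have := hP.V_y
  rw [map_zero, map_zero] at this
  exact WithZero.exp_ne_zero this.symm

theorem conjVal_nontrivial (hU : IsUniformization x H Ψ) (hy : K⟮y⟯ = K⟮x⟯)
    (hP : IsPointDatum Ψ y V δ E) (q : G ⧸ H) : ∃ f, f ≠ 0 ∧ conjVal hU V q f < 1 :=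
  ⟨y, y_ne_zero hP, by rw [conjVal_y hU hy hP]; exact exp_neg_E_lt_one hP⟩

/-- The place of `F` defined by `V ∘ conj q`. -/
noncomputable def conjPlace (hU : IsUniformization x H Ψ) (hy : K⟮y⟯ = K⟮x⟯)
    (hP : IsPointDatum Ψ y V δ E) (q : G ⧸ H) : Place K F :=
  placeOfValuation (conjVal hU V q) (conjVal_algebraMap hU hP q) (conjVal_nontrivial hU hy hP q)

theorem exists_mul_ord_conjPlace (hU : IsUniformization x H Ψ) (hy : K⟮y⟯ = K⟮x⟯)
    (hP : IsPointDatum Ψ y V δ E) (q : G ⧸ H) :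
    ∃ m : ℕ, 0 < m ∧ ∀ f : F, f ≠ 0 →
      V (conj hU q f) = WithZero.exp (-((m : ℤ) * (conjPlace hU hy hP q).ord f)) :=
  exists_mul_ord_placeOfValuation (conjVal hU V q) (conjVal_algebraMap hU hP q)
    (conjVal_nontrivial hU hy hP q)

theorem ord_conjPlace_y_pos (hU : IsUniformization x H Ψ) (hy : K⟮y⟯ = K⟮x⟯)
    (hP : IsPointDatum Ψ y V δ E) (q : G ⧸ H) : 0 < (conjPlace hU hy hP q).ord y := by
  obtain ⟨m, hm, h⟩ := exists_mul_ord_conjPlace hU hy hP q
  have h1 := h y (y_ne_zero hP)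
  rw [← conjVal_apply, conjVal_y hU hy hP, WithZero.exp_inj] at h1
  have hE := hP.E_pos
  by_contra hcon
  push Not at hcon
  have : (m : ℤ) * (conjPlace hU hy hP q).ord y ≤ 0 :=
    mul_nonpos_of_nonneg_of_nonpos (by positivity) hcon
  omega

theorem transcendental_y (hx : Transcendental K x) (hy : K⟮y⟯ = K⟮x⟯) : Transcendental K y := by
  intro halg
  apply hx
  have h1 : Algebra.IsAlgebraic K K⟮y⟯ := IntermediateField.isAlgebraic_adjoin_simple halg.isIntegral
  have hxm : x ∈ K⟮y⟯ := hy ▸ mem_adjoin_simple_self K x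
  have := h1.isAlgebraic (⟨x, hxm⟩ : K⟮y⟯)
  exact (isAlgebraic_algebraMap_iff (algebraMap K⟮y⟯ F).injective).mpr this

/-- `V ≤ 1` on `Ψ (K[y])`. -/
theorem V_aeval_le_one (hP : IsPointDatum Ψ y V δ E) (p : K[X]) : V (Ψ (aeval y p)) ≤ 1 := by
  rw [← Polynomial.aeval_algHom_apply, Polynomial.aeval_eq_sum_range]
  refine Valuation.map_sum_le V fun i _ => ?_
  rw [Algebra.smul_def, map_mul, map_pow, hP.V_y]
  have h1 : V (algebraMap K L (p.coeff i)) ≤ 1 := by
    rcases eq_or_ne (p.coeff i) 0 with h | h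
    · rw [h]; simp
    · exact (hP.V_algebraMap _ h).le
  exact mul_le_one' h1 (pow_le_one' (exp_neg_E_lt_one hP).le i)

section Main

variable [IsAlgClosed K] [CharZero K] [H.FiniteIndex]

/-- **Completeness**: every place above `y = 0` is one of the `conjPlace q`. -/
theorem exists_conjPlace_eq (hx : Transcendental K x) (hU : IsUniformization x H Ψ)
    [FiniteDimensional K⟮x⟯ F] (hy : K⟮y⟯ = K⟮x⟯) (hP : IsPointDatum Ψ y V δ E)
    (v : Place K F) (hv : 0 < v.ord y) : ∃ q : G ⧸ H, conjPlace hU hy hP q = v := by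
  classical
  haveI : IsFF1 K F := IsFF1.of_exists x
  haveI : Fintype (G ⧸ H) := Fintype.ofFinite _
  have hty := transcendental_y hx hy
  by_contra hcon
  push Not at hcon
  set T : Finset (Place K F) := Finset.univ.image (conjPlace hU hy hP) with hT
  have hvT : v ∉ T := by
    rw [hT, Finset.mem_image]
    rintro ⟨q, -, hq⟩
    exact hcon q hq
  obtain ⟨f, hfint, hfv, hfT⟩ := exists_integral_approx y hty v hv.le T (fun w hw => by
    rw [hT, Finset.mem_image] at hw
    obtain ⟨q, -, rfl⟩ := hw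
    exact (ord_conjPlace_y_pos hU hy hP q).le) hvT
  have hf0 : f ≠ 0 := ne_zero_of_ord_ne_zero v hfv.ne'
  -- all conjugates of `f` are `V`-units
  have hVf : ∀ q : G ⧸ H, V (conj hU q f) = 1 := by
    intro q
    obtain ⟨m, -, h⟩ := exists_mul_ord_conjPlace hU hy hP q
    rw [h f hf0, hfT _ (by rw [hT]; exact Finset.mem_image_of_mem _ (Finset.mem_univ q))]
    simp
  -- the norm
  obtain ⟨r, hr, hrN⟩ := hU.invariants (∏ q : G ⧸ H, conj hU q f) (fun γ => by
    rw [Finset.smul_prod']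
    exact Fintype.prod_bijective _ (MulAction.bijective γ) _ _ fun q => smul_conj hU γ q f)
  have hVr : V (Ψ r) = 1 := by
    rw [hrN, map_prod]
    exact Finset.prod_eq_one fun q _ => hVf q
  have hr0 : r ≠ 0 := by
    rintro rfl
    rw [map_zero, map_zero] at hVr
    exact zero_ne_one hVr
  -- integrality
  let A := Algebra.adjoin K {y}
  have hAle : ∀ a : A, (a : F) ∈ K⟮x⟯ := fun a =>
    hy ▸ (IntermediateField.algebra_adjoin_le_adjoin K {y}) a.2
  let φ : A →+* L := (Ψ : F →+* L).comp (algebraMap A F)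
  have hφ : ∀ q : G ⧸ H, (conj hU q).comp (algebraMap A F) = φ := by
    intro q
    ext a
    exact conj_of_mem_adjoin hU q (hAle a)
  have hint : ∀ q : G ⧸ H, φ.IsIntegralElem (conj hU q f) := by
    intro q
    obtain ⟨p, hp, hp0⟩ := hfint
    refine ⟨p, hp, ?_⟩
    rw [← hφ q, ← Polynomial.hom_eval₂, hp0, map_zero]
  have hintprod : ∀ s : Finset (G ⧸ H), φ.IsIntegralElem (∏ q ∈ s, conj hU q f) := by
    intro s
    induction s using Finset.induction_on with
    | empty => rw [Finset.prod_empty]; exact φ.isIntegralElem_one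
    | insert a s ha ih => rw [Finset.prod_insert ha]; exact (hint a).mul _ ih
  have hback : ∀ g : F, φ.IsIntegralElem (Ψ g) → IsIntegral A g := by
    rintro g ⟨p, hp, hp0⟩
    refine ⟨p, hp, (Ψ : F →+* L).injective ?_⟩
    rw [map_zero, Polynomial.hom_eval₂]
    exact hp0
  have hrint : IsIntegral A r := hback r (by rw [hrN]; exact hintprod _)
  -- `r / f` is integral
  have hquot : IsIntegral A (r / f) := by
    apply hback
    have h1 : Ψ (r / f) = ∏ q ∈ Finset.univ.erase ((1 : G) : G ⧸ H), conj hU q f := by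
      rw [map_div₀, hrN, ← Finset.mul_prod_erase Finset.univ _ (Finset.mem_univ ((1 : G) : G ⧸ H)),
        conj_one]
      have : Ψ f ≠ 0 := by simpa using hf0
      field_simp
    rw [h1]
    exact hintprod _
  have hquotmem : r / f ∈ v.toValuationSubring :=
    mem_of_isIntegral v A (adjoin_le_of_ord_nonneg v hv.le) hquot
  have hvr : 0 < v.ord r := by
    have h1 : r = f * (r / f) := by field_simp
    have h2 : r / f ≠ 0 := div_ne_zero hr0 hf0
    rw [h1, v.ord_mul hf0 h2]
    have := ord_nonneg_of_mem v hquotmem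
    omega
  -- `r ∈ K[y]`
  haveI := isPrincipalIdealRing_adjoin y hty
  have hrA : r ∈ A := by
    have hr' : r ∈ K⟮y⟯ := hy ▸ hr
    have h1 : IsIntegral A (⟨r, hr'⟩ : K⟮y⟯) :=
      (isIntegral_algebraMap_iff (algebraMap K⟮y⟯ F).injective).mp hrint
    obtain ⟨a, ha⟩ := IsIntegrallyClosed.isIntegral_iff.mp h1
    have := congrArg (algebraMap K⟮y⟯ F) ha
    have h2 : (a : F) = r := this
    exact h2 ▸ a.2
  obtain ⟨p, rfl⟩ : ∃ p : K[X], aeval y p = r := by
    have hrA' : r ∈ Algebra.adjoin K {y} := hrA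
    rw [Algebra.adjoin_singleton_eq_range_aeval] at hrA'
    exact hrA'
  -- the constant coefficient vanishes
  have hdecomp : aeval y p = aeval y p.divX * y + algebraMap K F (p.coeff 0) := by
    conv_lhs => rw [← Polynomial.divX_mul_X_add p]
    simp
  have hc0 : p.coeff 0 = 0 := by
    by_contra hc
    have hc' : algebraMap K F (p.coeff 0) ≠ 0 := by simpa using hc
    rcases eq_or_ne (aeval y p.divX * y) 0 with h0 | h0
    · rw [hdecomp, h0, zero_add, ord_algebraMap] at hvr
      exact lt_irrefl _ hvr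
    · have h1 : aeval y p.divX ≠ 0 := left_ne_zero_of_mul h0
      have h2 : 0 ≤ v.ord (aeval y p.divX) :=
        ord_nonneg_of_mem v (adjoin_le_of_ord_nonneg v hv.le _ (by
          rw [Algebra.adjoin_singleton_eq_range_aeval]; exact ⟨_, rfl⟩))
      have h3 : v.ord (algebraMap K F (p.coeff 0)) < v.ord (aeval y p.divX * y) := by
        rw [ord_algebraMap, v.ord_mul h1 (y_ne_zero hP)]
        omega
      have h4 := ord_add_eq_of_lt v hc' h3
      rw [add_comm, ← hdecomp, ord_algebraMap] at h4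
      omega
  rw [hdecomp, hc0, map_zero, add_zero, map_mul, map_mul, hP.V_y] at hVr
  have h5 := mul_le_mul' (V_aeval_le_one hP p.divX) (le_refl (WithZero.exp (-(E : ℤ)) : ℤᵐ⁰))
  rw [hVr, one_mul] at h5
  exact absurd (exp_neg_E_lt_one hP) (not_lt.mpr h5)

end Main

end Fermat.Agent.S24.CL
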