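/-
S24, block CL (owner helper24): valuations trivial on `K` restricted to `K(y)`;
places from valuation subrings containing a Dedekind model.
-/
import Fermat.Agent.S24.FFSum

set_option autoImplicit false
set_option linter.style.haveILetI false

namespace Fermat.Agent.S24.CL

open IntermediateField Polynomial AlgebraicCurve IsDedekindDomain Fermat.Agent.S24.FF

section Val

variable {K F Γ : Type*} [Field K] [Field F] [Algebra K F] [LinearOrderedCommGroupWithZero Γ]

theorem val_aeval_le_one (W : Valuation F Γ) (hK : ∀ c : K, W (algebraMap K F c) ≤ 1)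
    {y : F} (hy : W y ≤ 1) (r : K[X]) : W (aeval y r) ≤ 1 := by
  induction r using Polynomial.induction_on' with
  | add p q hp hq => 
    rw [map_add]
    exact (W.map_add _ _).trans (max_le hp hq)
  | monomial n a => 
    rw [aeval_monomial, map_mul, map_pow]
    exact mul_le_one' (hK a) (pow_le_one₀ zero_le hy)

theorem val_aeval_eq_one (W : Valuation F Γ) (hK : ∀ c : K, c ≠ 0 → W (algebraMap K F c) = 1)
    {y : F} (hy : W y < 1) (r : K[X]) (hr : r.coeff 0 ≠ 0) : W (aeval y r) = 1 := by
  have hK' : ∀ c : K, W (algebraMap K F c) ≤ 1 := by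
    intro c
    rcases eq_or_ne c 0 with rfl | hc
    · simp
    · exact (hK c hc).le
  have h1 : aeval y r = aeval y r.divX * y + algebraMap K F (r.coeff 0) := by
    conv_lhs => rw [← Polynomial.divX_mul_X_add r]
    simp
  rw [h1]
  have h2 : W (aeval y r.divX * y) < 1 := by
    rw [map_mul]
    calc W (aeval y r.divX) * W y ≤ 1 * W y := 
          mul_le_mul_left (val_aeval_le_one W hK' hy.le _) _
      _ < 1 := by rwa [one_mul]
  rw [Valuation.map_add_eq_of_lt_right, hK _ hr]
  rwa [hK _ hr]

theorem val_aeval (W : Valuation F Γ) (hK : ∀ c : K, c ≠ 0 → W (algebraMap K F c) = 1)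
    {y : F} (hy : W y < 1) (r : K[X]) (hr : r ≠ 0) :
    W (aeval y r) = W y ^ (r.rootMultiplicity 0) := by
  obtain ⟨q, hq, hq'⟩ := Polynomial.exists_eq_pow_rootMultiplicity_mul_and_not_dvd r hr 0
  rw [C_0, sub_zero] at hq hq'
  rw [Polynomial.X_dvd_iff] at hq'
  conv_lhs => rw [hq]
  rw [map_mul, map_pow, aeval_X, map_mul, map_pow, val_aeval_eq_one W hK hy q hq', mul_one]

/-- Two valuations of `F`, trivial on `K`, for which `y` is a non-unit, have the same integers in
`K(y)`. -/
theorem val_le_one_of_val_le_one {Γ' : Type*} [LinearOrderedCommGroupWithZero Γ']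
    (W : Valuation F Γ) (W' : Valuation F Γ')
    (hK : ∀ c : K, c ≠ 0 → W (algebraMap K F c) = 1)
    (hK' : ∀ c : K, c ≠ 0 → W' (algebraMap K F c) = 1)
    {y : F} (hy0 : y ≠ 0) (hy : W y < 1) (hy' : W' y < 1) {c : F} (hc : c ∈ K⟮y⟯)
    (h : W c ≤ 1) : W' c ≤ 1 := by
  obtain ⟨r, s, rfl⟩ := (IntermediateField.mem_adjoin_simple_iff K c).mp hc
  rcases eq_or_ne r 0 with rfl | hr
  · simp
  rcases eq_or_ne s 0 with rfl | hs
  · simp
  have hW0 : W y ≠ 0 := (Valuation.ne_zero_iff _).mpr hy0
  have hW0' : W' y ≠ 0 := (Valuation.ne_zero_iff _).mpr hy0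
  rw [map_div₀, val_aeval W hK hy r hr, val_aeval W hK hy s hs,
    div_le_one₀ (pow_pos (zero_lt_iff.mpr hW0) _)] at h
  rw [map_div₀, val_aeval W' hK' hy' r hr, val_aeval W' hK' hy' s hs,
    div_le_one₀ (pow_pos (zero_lt_iff.mpr hW0') _)]
  have h1 : s.rootMultiplicity 0 ≤ r.rootMultiplicity 0 := by
    by_contra hlt
    push Not at hlt
    exact absurd h (not_le.mpr (pow_lt_pow_right_of_lt_one₀ (zero_lt_iff.mpr hW0) hy hlt))
  exact pow_le_pow_right_of_le_one' hy'.le h1

end Val

section PlaceOfSubring

variable {K F : Type*} [Field K] [Field F] [Algebra K F]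
variable {B : Type*} [CommRing B] [IsDedekindDomain B] [Algebra B F] [IsFractionRing B F]
  [Algebra K B] [IsScalarTower K B F]

/-- A proper valuation subring of `F` containing the Dedekind model `B` is the valuation ring of
a prime of `B`. -/
theorem exists_heightOneSpectrum_of_valuationSubring (O : ValuationSubring F)
    (hB : ∀ b : B, algebraMap B F b ∈ O) (hne : O ≠ ⊤) :
    ∃ w : HeightOneSpectrum B,
      (Place.ofHeightOneSpectrum (K := K) (F := F) w).toValuationSubring = O ∧
      ∀ b : B, b ∈ w.asIdeal ↔ (algebraMap B F b = 0 ∨ (algebraMap B F b)⁻¹ ∉ O) := by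
  let φ : B →+* O := (algebraMap B F).codRestrict O.toSubring hB
  have hmem : ∀ b : B, b ∈ (IsLocalRing.maximalIdeal O).comap φ ↔
      (algebraMap B F b = 0 ∨ (algebraMap B F b)⁻¹ ∉ O) := by
    intro b
    rw [Ideal.mem_comap, IsLocalRing.mem_maximalIdeal, mem_nonunits_iff]
    rcases eq_or_ne (algebraMap B F b) 0 with h0 | h0
    · have : φ b = 0 := Subtype.ext h0
      simp [this, h0]
    · constructor
      · intro h
        right
        intro hinv
        apply h
        exact ⟨⟨φ b, ⟨_, hinv⟩, Subtype.ext (mul_inv_cancel₀ h0),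
          Subtype.ext (inv_mul_cancel₀ h0)⟩, rfl⟩
      · rintro (h | h) hu
        · exact h0 h
        · apply h
          obtain ⟨c, hc⟩ := isUnit_iff_exists_inv.mp hu
          have hc' : algebraMap B F b * (c : F) = 1 := congrArg Subtype.val hc
          rw [← eq_inv_of_mul_eq_one_right hc']
          exact c.2
  let w : HeightOneSpectrum B :=
    { asIdeal := (IsLocalRing.maximalIdeal O).comap φ
      isPrime := Ideal.comap_isPrime _ _
      ne_bot := by
        intro hbot
        apply hne
        refine SetLike.ext fun x => ⟨fun _ => ValuationSubring.mem_top x, fun _ => ?_⟩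
        obtain ⟨a, s, hs, rfl⟩ := IsFractionRing.div_surjective (A := B) x
        rw [div_eq_mul_inv]
        refine mul_mem (hB a) ?_
        by_contra hcon
        have : s ∈ (IsLocalRing.maximalIdeal O).comap φ := (hmem s).mpr (Or.inr hcon)
        rw [hbot, Ideal.mem_bot] at this
        exact nonZeroDivisors.ne_zero hs this }
  refine ⟨w, ?_, hmem⟩
  rw [Place.ofHeightOneSpectrum_toValuationSubring,
    ← HeightOneSpectrum.valuationSubringAtPrime_eq_valuationSubring]
  refine ValuationSubring.eq_of_le_of_ne_top _ ?_ hne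
  rw [HeightOneSpectrum.valuationSubringAtPrime_eq_valuationSubring]
  intro x hx
  rw [Valuation.mem_valuationSubring_iff] at hx
  obtain ⟨n, d, hnd⟩ := w.exists_primeCompl_mul_eq_of_integer x hx
  have hd : (d : B) ∉ w.asIdeal := d.2
  rw [show (d : B) ∈ w.asIdeal ↔ _ from hmem d, not_or, not_not] at hd
  have : x = algebraMap B F n * (algebraMap B F d)⁻¹ := by
    rw [← hnd]
    have := hd.1
    field_simp
  rw [this]
  exact mul_mem (hB n) hd.2

end PlaceOfSubring

end Fermat.Agent.S24.CL
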