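/-
S24, block CL (owner helper24): counting the places over a point of the base from a uniformisation.
-/
import Fermat.Agent.S24.CL.Degree
import Fermat.Agent.S24.CL.ValLemmas

set_option autoImplicit false
set_option linter.style.haveILetI false

namespace Fermat.Agent.S24.CL

open IntermediateField Polynomial AlgebraicCurve IsDedekindDomain WithZero Fermat.Agent.S24.FF

variable {K F L G : Type*} [Field K] [Field F] [Algebra K F] [Field L] [Algebra K L]
  [Group G] [MulSemiringAction G L]
variable {x y : F} {H : Subgroup G} {Ψ : F →ₐ[K] L} {V : Valuation L ℤᵐ⁰} {δ : G} {E : ℕ}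

/-- The valuation of `F` induced by `V` and the conjugate embedding `conj hU q`. -/
noncomputable def W (hU : IsUniformization x H Ψ) (V : Valuation L ℤᵐ⁰) (q : G ⧸ H) :
    Valuation F ℤᵐ⁰ := V.comap (conj hU q)

section Basic

variable (hU : IsUniformization x H Ψ) (hP : IsPointDatum Ψ y V δ E)

theorem W_apply (q : G ⧸ H) (f : F) : W hU V q f = V (conj hU q f) := rfl

include hP in
theorem W_const (q : G ⧸ H) (c : K) (hc : c ≠ 0) : W hU V q (algebraMap K F c) = 1 := by
  rw [W_apply, conj_algebraMap, hP.V_algebraMap c hc]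

include hP in
theorem W_y (hy : y ∈ K⟮x⟯) (q : G ⧸ H) : W hU V q y = exp (-(E : ℤ)) := by
  rw [W_apply, conj_of_mem_adjoin hU q hy, hP.V_y]

include hP in
theorem W_y_lt_one (hy : y ∈ K⟮x⟯) (q : G ⧸ H) : W hU V q y < 1 := by
  rw [W_y hU hP hy, ← exp_zero, exp_lt_exp]
  have := hP.E_pos
  omega

include hP in
theorem W_smul (q : G ⧸ H) (f : F) : W hU V (δ • q) f = W hU V q f := by
  rw [W_apply, W_apply, ← smul_conj, hP.V_smul]

include hP in
theorem y_ne_zero : y ≠ 0 := by
  rintro rfl
  have := hP.V_y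
  rw [map_zero, map_zero] at this
  exact exp_ne_zero this.symm

end Basic

theorem mem_of_isIntegral' (O : ValuationSubring F) (A : Subalgebra K F)
    (hA : ∀ a ∈ A, a ∈ O) {b : F} (hb : IsIntegral A b) : b ∈ O := by
  letI : Algebra A O :=
    ((algebraMap A F).codRestrict O.toSubring (fun a => hA a a.2)).toAlgebra
  letI : IsScalarTower A O F := IsScalarTower.of_algebraMap_eq fun f => rfl
  have hx : IsIntegral O b := hb.tower_top
  obtain ⟨y, hy⟩ := IsIntegrallyClosed.isIntegral_iff.mp hx
  exact hy ▸ y.2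

theorem adicValuation_le_one_iff (v : Place K F) (f : F) :
    v.adicValuation f ≤ 1 ↔ f ∈ v.toValuationSubring := by
  rcases eq_or_ne f 0 with rfl | hf
  · simp [zero_mem]
  rw [mem_iff_ord_nonneg, adicValuation_eq_exp_neg_ord v hf, ← exp_zero, exp_le_exp]
  omega

theorem adicValuation_lt_one_iff (v : Place K F) {f : F} (hf : f ≠ 0) :
    v.adicValuation f < 1 ↔ 0 < v.ord f := by
  rw [adicValuation_eq_exp_neg_ord v hf, ← exp_zero, exp_lt_exp]
  omega

theorem adicValuation_algebraMap (v : Place K F) (c : K) (hc : c ≠ 0) :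
    v.adicValuation (algebraMap K F c) = 1 := by
  rw [adicValuation_eq_exp_neg_ord v (by simpa using hc), ord_algebraMap, neg_zero, exp_zero]

section Abstract

variable (hU : IsUniformization x H Ψ) (hP : IsPointDatum Ψ y V δ E) (hy : y ∈ K⟮x⟯)
variable {B : Type*} [CommRing B] [IsDedekindDomain B] [Algebra B F] [IsFractionRing B F]
  [Algebra K B] [IsScalarTower K B F]
  (hBW : ∀ (q : G ⧸ H) (b : B), W hU V q (algebraMap B F b) ≤ 1)

include hP hy hBW in
theorem exists_prime (q : G ⧸ H) : ∃ w : HeightOneSpectrum B,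
    (Place.ofHeightOneSpectrum (K := K) (F := F) w).toValuationSubring
      = (W hU V q).valuationSubring ∧
    ∀ b : B, b ∈ w.asIdeal ↔ W hU V q (algebraMap B F b) < 1 := by
  have hne : (W hU V q).valuationSubring ≠ ⊤ := by
    intro h
    have h1 : y⁻¹ ∈ (W hU V q).valuationSubring := h ▸ ValuationSubring.mem_top _
    rw [Valuation.mem_valuationSubring_iff, map_inv₀] at h1
    have h2 := W_y_lt_one hU hP hy q
    have h0 : W hU V q y ≠ 0 := (Valuation.ne_zero_iff _).mpr (y_ne_zero hP)
    rw [inv_le_one₀ (zero_lt_iff.mpr h0)] at h1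
    exact absurd h2 (not_lt.mpr h1)
  obtain ⟨w, hw, hw'⟩ := exists_heightOneSpectrum_of_valuationSubring (K := K)
    (W hU V q).valuationSubring (fun b => (Valuation.mem_valuationSubring_iff _ _).mpr (hBW q b)) hne
  refine ⟨w, hw, fun b => ?_⟩
  rw [hw', Valuation.mem_valuationSubring_iff, map_inv₀]
  rcases eq_or_ne (algebraMap B F b) 0 with h0 | h0
  · simp [h0]
  · have h1 : W hU V q (algebraMap B F b) ≠ 0 := (Valuation.ne_zero_iff _).mpr h0
    rw [inv_le_one₀ (zero_lt_iff.mpr h1), not_le]
    simp [h0]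

omit [Algebra K L] [MulSemiringAction G L] in
theorem coeff_prod_X_sub_C_le_one {ι : Type*} (s : Finset ι) (a : ι → L)
    (ha : ∀ i ∈ s, V (a i) ≤ 1) (n : ℕ) : V ((∏ i ∈ s, (X - C (a i))).coeff n) ≤ 1 := by
  have h : (∏ i ∈ s, (X - C (a i))) ∈ Polynomial.lifts V.integer.subtype := by
    refine Subsemiring.prod_mem _ fun i hi => ?_
    refine ⟨X - C ⟨a i, ha i hi⟩, ?_⟩
    simp
  rw [Polynomial.lifts_iff_coeff_lifts] at h
  obtain ⟨c, hc⟩ := h n
  rw [← hc]
  exact c.2

include hP hBW in
/-- **Completeness**: every place over the point is induced by one of the conjugate embeddings. -/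
theorem exists_valuationSubring_eq [Fintype (G ⧸ H)] (hxy : K⟮y⟯ = K⟮x⟯) (v : Place K F)
    (hvB : ∀ b : B, algebraMap B F b ∈ v.toValuationSubring) (hvy : 0 < v.ord y) :
    ∃ q : G ⧸ H, (W hU V q).valuationSubring = v.toValuationSubring := by
  classical
  have hy : y ∈ K⟮x⟯ := hxy ▸ mem_adjoin_simple_self K y
  by_contra hcon
  push Not at hcon
  choose w hw hw' using exists_prime (K := K) hU hP hy hBW
  have hav : ¬ (((primeOfPlace v hvB).asIdeal : Set B) ⊆
      ⋃ q ∈ ((Finset.univ : Finset (G ⧸ H)) : Set (G ⧸ H)), (w q).asIdeal) := by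
    rw [Ideal.subset_union_prime ((1 : G) : G ⧸ H) ((1 : G) : G ⧸ H)
      (fun q _ _ _ => (w q).isPrime)]
    rintro ⟨q, -, hle⟩
    have h1 : primeOfPlace v hvB = w q :=
      HeightOneSpectrum.ext ((primeOfPlace v hvB).isMaximal.eq_of_le (w q).isPrime.ne_top hle)
    apply hcon q
    rw [← hw q, ← h1, ofHeightOneSpectrum_primeOfPlace]
  obtain ⟨b, hb0, hb⟩ := Set.not_subset.mp hav
  simp only [Finset.coe_univ, Set.mem_univ, Set.iUnion_true, Set.mem_iUnion, SetLike.mem_coe,
    not_exists] at hb hb0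
  have hbne : b ≠ 0 := fun h => hb ((1 : G) : G ⧸ H) (h ▸ zero_mem _)
  have hbF : algebraMap B F b ≠ 0 := by simpa using hbne
  have hWb : ∀ q, W hU V q (algebraMap B F b) = 1 := fun q =>
    le_antisymm (hBW q b) (not_lt.mp (fun h => hb q ((hw' q b).mpr h)))
  have hvb : 0 < v.ord (algebraMap B F b) := by
    rcases (mem_primeOfPlace_iff v hvB b).mp hb0 with h | h
    · exact absurd h hbne
    · exact h
  obtain ⟨p, hmon, -, hmap, h0⟩ := exists_poly hU (algebraMap B F b)⁻¹
  -- all coefficients of `p` lie in `O_v`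
  have hcoeff : ∀ n, ((p.coeff n : K⟮x⟯) : F) ∈ v.toValuationSubring := by
    intro n
    rw [← adicValuation_le_one_iff]
    refine val_le_one_of_val_le_one (K := K) (W hU V ((1 : G) : G ⧸ H)) v.adicValuation
      (W_const hU hP _) (adicValuation_algebraMap v) (y_ne_zero hP) (W_y_lt_one hU hP hy _)
      ((adicValuation_lt_one_iff v (y_ne_zero hP)).mpr hvy) (by rw [hxy]; exact (p.coeff n).2) ?_
    rw [W_apply, conj_one]
    have h1 : Ψ ((p.coeff n : K⟮x⟯) : F) = (conjPoly hU (algebraMap B F b)⁻¹).coeff n := by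
      rw [← hmap, coeff_map]
      rfl
    rw [h1, conjPoly]
    refine coeff_prod_X_sub_C_le_one _ _ (fun q _ => ?_) n
    rw [← W_apply, map_inv₀, hWb q, inv_one]
  have hint : IsIntegral v.toValuationSubring (algebraMap B F b)⁻¹ := by
    have hl : p.map (algebraMap K⟮x⟯ F) ∈ Polynomial.lifts (algebraMap v.toValuationSubring F) := by
      rw [Polynomial.lifts_iff_coeff_lifts]
      intro n
      rw [coeff_map]
      exact ⟨⟨_, hcoeff n⟩, rfl⟩
    obtain ⟨p', hp', -, hmon'⟩ :=
      Polynomial.lifts_and_natDegree_eq_and_monic hl (hmon.map _)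
    refine ⟨p', hmon', ?_⟩
    rw [← eval_map, hp', eval_map, ← aeval_def, h0]
  obtain ⟨z, hz⟩ := IsIntegrallyClosed.isIntegral_iff.mp hint
  have hmem : (algebraMap B F b)⁻¹ ∈ v.toValuationSubring := hz ▸ z.2
  have := ord_nonneg_of_mem v hmem
  rw [v.ord_inv] at this
  omega

end Abstract

section Concrete

open scoped IntermediateField.algebraAdjoinAdjoin

variable [CharZero K]
variable (hU : IsUniformization x H Ψ) (hP : IsPointDatum Ψ y V δ E)

omit [CharZero K] in
include hP in
theorem W_le_one_of_isIntegral (hy : y ∈ K⟮x⟯) (q : G ⧸ H) {b : F}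
    (hb : IsIntegral (Algebra.adjoin K {y}) b) : W hU V q b ≤ 1 := by
  rw [← Valuation.mem_valuationSubring_iff]
  refine mem_of_isIntegral' _ (Algebra.adjoin K {y}) (fun a ha => ?_) hb
  induction ha using Algebra.adjoin_induction with
  | mem z hz =>
    rw [Set.mem_singleton_iff] at hz
    subst hz
    exact (Valuation.mem_valuationSubring_iff _ _).mpr (W_y_lt_one hU hP hy q).le
  | algebraMap r =>
    rw [Valuation.mem_valuationSubring_iff]
    rcases eq_or_ne r 0 with rfl | hr
    · simp
    · exact (W_const hU hP q r hr).le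
  | add a b _ _ ha hb => exact add_mem ha hb
  | mul a b _ _ ha hb => exact mul_mem ha hb

include hP in
/-- The place of `F` induced by a conjugate embedding. -/
theorem exists_place (hx : Transcendental K x) [FiniteDimensional K⟮x⟯ F] (hxy : K⟮y⟯ = K⟮x⟯)
    (q : G ⧸ H) : ∃ v : Place K F, v.toValuationSubring = (W hU V q).valuationSubring := by
  have hy : y ∈ K⟮x⟯ := hxy ▸ mem_adjoin_simple_self K y
  have hty : Transcendental K y := by
    intro halg
    apply hx
    have h1 : Algebra.IsAlgebraic K K⟮y⟯ := IntermediateField.isAlgebraic_adjoin_simple halg.isIntegral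
    have h2 : x ∈ K⟮y⟯ := hxy ▸ mem_adjoin_simple_self K x
    have h3 := h1.isAlgebraic (⟨x, h2⟩ : K⟮y⟯)
    exact (isAlgebraic_algebraMap_iff (algebraMap K⟮y⟯ F).injective).mpr h3
  haveI : FiniteDimensional K⟮y⟯ F := hxy ▸ inferInstance
  haveI := isPrincipalIdealRing_adjoin y hty
  haveI : CharZero K⟮y⟯ := charZero_of_injective_algebraMap (algebraMap K K⟮y⟯).injective
  haveI : IsDedekindDomain (integralClosure (Algebra.adjoin K {y}) F) :=
    integralClosure.isDedekindDomain (Algebra.adjoin K {y}) K⟮y⟯ F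
  haveI : IsFractionRing (integralClosure (Algebra.adjoin K {y}) F) F :=
    integralClosure.isFractionRing_of_finite_extension K⟮y⟯ F
  obtain ⟨w, hw, -⟩ := exists_prime (K := K) (B := integralClosure (Algebra.adjoin K {y}) F)
    hU hP hy (fun q b => W_le_one_of_isIntegral hU hP hy q (b := (b : F)) b.2) q
  exact ⟨_, hw⟩

include hP in
/-- **Completeness**, at the level of places. -/
theorem exists_conj_of_place [Fintype (G ⧸ H)] (hx : Transcendental K x)
    [FiniteDimensional K⟮x⟯ F] (hxy : K⟮y⟯ = K⟮x⟯) (v : Place K F) (hvy : 0 < v.ord y) :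
    ∃ q : G ⧸ H, (W hU V q).valuationSubring = v.toValuationSubring := by
  have hy : y ∈ K⟮x⟯ := hxy ▸ mem_adjoin_simple_self K y
  have hty : Transcendental K y := by
    intro halg
    apply hx
    have h1 : Algebra.IsAlgebraic K K⟮y⟯ := IntermediateField.isAlgebraic_adjoin_simple halg.isIntegral
    have h2 : x ∈ K⟮y⟯ := hxy ▸ mem_adjoin_simple_self K x
    have h3 := h1.isAlgebraic (⟨x, h2⟩ : K⟮y⟯)
    exact (isAlgebraic_algebraMap_iff (algebraMap K⟮y⟯ F).injective).mpr h3
  haveI : FiniteDimensional K⟮y⟯ F := hxy ▸ inferInstance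
  haveI := isPrincipalIdealRing_adjoin y hty
  haveI : CharZero K⟮y⟯ := charZero_of_injective_algebraMap (algebraMap K K⟮y⟯).injective
  haveI : IsDedekindDomain (integralClosure (Algebra.adjoin K {y}) F) :=
    integralClosure.isDedekindDomain (Algebra.adjoin K {y}) K⟮y⟯ F
  haveI : IsFractionRing (integralClosure (Algebra.adjoin K {y}) F) F :=
    integralClosure.isFractionRing_of_finite_extension K⟮y⟯ F
  exact exists_valuationSubring_eq (K := K) (B := integralClosure (Algebra.adjoin K {y}) F)
    hU hP (fun q b => W_le_one_of_isIntegral hU hP hy q (b := (b : F)) b.2) hxy v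
    (fun b => mem_of_isIntegral v _ (adjoin_le_of_ord_nonneg v hvy.le) b.2) hvy

end Concrete

end Fermat.Agent.S24.CL
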