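/-
S24, block CL (owner helper24): the counting argument (squeeze).
-/
import Fermat.Agent.S24.CL.Squeeze

set_option autoImplicit false
set_option linter.style.haveILetI false

namespace Fermat.Agent.S24.CL

open IntermediateField Polynomial AlgebraicCurve IsDedekindDomain WithZero Fermat.Agent.S24.FF

theorem card_eq_of_squeeze {Ω P : Type*} [Fintype Ω] [DecidableEq P] (s : Finset P) (ν : Ω → P)
    (hν : ∀ ω, ν ω ∈ s) (hsurj : ∀ v ∈ s, ∃ ω, ν ω = v) (e : P → ℤ) (he : ∀ v ∈ s, 0 < e v)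
    (per : Ω → ℤ) (hle : ∀ ω, e (ν ω) ≤ per ω) (hsum : ∑ ω, per ω = ∑ v ∈ s, e v) :
    Fintype.card Ω = s.card := by
  classical
  set c : P → ℕ := fun v => (Finset.univ.filter fun ω => ν ω = v).card with hc
  have h1 : ∑ ω, e (ν ω) = ∑ v ∈ s, (c v : ℤ) * e v := by
    rw [← Finset.sum_fiberwise_of_maps_to (s := Finset.univ) (t := s) (g := ν) (fun ω _ => hν ω)]
    apply Finset.sum_congr rfl
    intro v _
    rw [Finset.sum_congr rfl (fun ω hω => by rw [(Finset.mem_filter.mp hω).2])]
    simp [hc]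
  have h2 : ∑ ω, e (ν ω) ≤ ∑ v ∈ s, e v := (Finset.sum_le_sum fun ω _ => hle ω).trans_eq hsum
  have hc1 : ∀ v ∈ s, 1 ≤ c v := by
    intro v hv
    obtain ⟨ω, hω⟩ := hsurj v hv
    exact Finset.card_pos.mpr ⟨ω, by simp [hω]⟩
  have h3 : ∀ v ∈ s, e v ≤ (c v : ℤ) * e v := by
    intro v hv
    have a1 : (1 : ℤ) ≤ c v := by exact_mod_cast hc1 v hv
    nlinarith [he v hv]
  have h4 : ∀ v ∈ s, e v = (c v : ℤ) * e v :=
    (Finset.sum_eq_sum_iff_of_le h3).mp (le_antisymm (Finset.sum_le_sum h3) (h1 ▸ h2))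
  have h5 : ∀ v ∈ s, c v = 1 := by
    intro v hv
    have a1 := h4 v hv
    have a2 := he v hv
    have a3 : ((c v : ℤ) - 1) * e v = 0 := by linarith
    rcases mul_eq_zero.mp a3 with h | h
    · have : (c v : ℤ) = 1 := by linarith
      exact_mod_cast this
    · omega
  rw [← Finset.card_univ, Finset.card_eq_sum_card_fiberwise (f := ν) (t := s) (fun ω _ => hν ω)]
  rw [Finset.sum_congr rfl h5]
  simp

variable {K F L G : Type*} [Field K] [Field F] [Algebra K F] [Field L] [Algebra K L]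
  [Group G] [MulSemiringAction G L]
variable {x y : F} {H : Subgroup G} {Ψ : F →ₐ[K] L} {V : Valuation L ℤᵐ⁰} {δ : G} {E : ℕ}

/-- `W q = exp (- m * ord)` for the place attached to `q`. -/
theorem exists_mul_ord (hU : IsUniformization x H Ψ) (q : G ⧸ H) (v : Place K F)
    (hv : v.toValuationSubring = (W hU V q).valuationSubring) :
    ∃ m : ℤ, 0 < m ∧ ∀ f : F, f ≠ 0 → W hU V q f = exp (-(m * v.ord f)) := by
  obtain ⟨m, hm, h⟩ := exists_eq_mul_ord v (fun f => -(log (W hU V q f)))
    (fun f g hf hg => by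
      simp only [map_mul]
      rw [log_mul ((Valuation.ne_zero_iff _).mpr hf) ((Valuation.ne_zero_iff _).mpr hg)]
      ring)
    (fun f hf => by
      rw [hv, Valuation.mem_valuationSubring_iff]
      have h0 : W hU V q f ≠ 0 := (Valuation.ne_zero_iff _).mpr hf
      rw [← exp_log h0, ← exp_zero, exp_le_exp, log_exp]
      omega)
  refine ⟨m, hm, fun f hf => ?_⟩
  have h0 : W hU V q f ≠ 0 := (Valuation.ne_zero_iff _).mpr hf
  rw [← h f hf, neg_neg, exp_log h0]

/-- The ramification index is at most the length of the orbit. -/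
theorem ord_le_of_pow_smul_eq (hU : IsUniformization x H Ψ) (hP : IsPointDatum Ψ y V δ E)
    (hy : y ∈ K⟮x⟯) (q : G ⧸ H) (v : Place K F)
    (hv : v.toValuationSubring = (W hU V q).valuationSubring) {l : ℕ} (hl : 0 < l)
    (hq : δ ^ l • q = q) : 0 < v.ord y ∧ v.ord y ≤ l := by
  obtain ⟨m, hm, h⟩ := exists_mul_ord hU q v hv
  have hE := hP.E_pos
  have h1 : m * v.ord y = E := by
    have := h y (y_ne_zero hP)
    rw [W_y hU hP hy, exp_inj] at this
    omega
  have hpos : 0 < v.ord y := by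
    by_contra hcon
    push Not at hcon
    have : m * v.ord y ≤ 0 := mul_nonpos_of_nonneg_of_nonpos hm.le hcon
    omega
  refine ⟨hpos, ?_⟩
  obtain ⟨π, hπ⟩ := exists_ord_eq_one v
  have hπ0 : π ≠ 0 := ne_zero_of_ord_ne_zero v (by omega)
  have h2 := h π hπ0
  rw [hπ, mul_one] at h2
  obtain ⟨k, hk⟩ := hP.V_dvd l (conj hU q π) (by simpa using hπ0) (by rw [smul_conj, hq])
  rw [← W_apply, h2, exp_inj] at hk
  -- `-m = (E / gcd E l) * k`, `m * e = E`
  set d := Nat.gcd E l with hd
  obtain ⟨E', hE'⟩ : d ∣ E := Nat.gcd_dvd_left E l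
  have hdpos : 0 < d := Nat.gcd_pos_of_pos_left _ hE
  have hdiv : E / d = E' := by rw [hE', Nat.mul_div_cancel_left _ hdpos]
  rw [hdiv] at hk
  have hE'pos : 0 < E' := by
    rcases Nat.eq_zero_or_pos E' with h0 | h0
    · rw [h0, mul_zero] at hE'; omega
    · exact h0
  -- `E' * (-k) * e = d * E'`
  have h3 : (E' : ℤ) * ((-k) * v.ord y) = (E' : ℤ) * d := by
    have : ((E : ℕ) : ℤ) = (d : ℤ) * E' := by exact_mod_cast hE'
    calc (E' : ℤ) * ((-k) * v.ord y) = (-((E' : ℤ) * k)) * v.ord y := by ring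
      _ = m * v.ord y := by rw [← hk, neg_neg]
      _ = E' * d := by rw [h1, this]; ring
  have h4 : (-k) * v.ord y = d := mul_left_cancel₀ (by exact_mod_cast hE'pos.ne') h3
  have h5 : v.ord y ∣ (d : ℤ) := ⟨-k, by rw [← h4]; ring⟩
  have h6 : (d : ℤ) ∣ (l : ℤ) := by exact_mod_cast Nat.gcd_dvd_right E l
  exact Int.le_of_dvd (by exact_mod_cast hl) (h5.trans h6)

/-- **Counting places over a point** (stub `ncard_places_eq_orb` of the skeleton). -/
theorem ncard_places_eq_orb [IsAlgClosed K] [CharZero K] (hx : Transcendental K x)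
    [H.FiniteIndex] (hU : IsUniformization x H Ψ) [FiniteDimensional K⟮x⟯ F]
    (hxy : K⟮y⟯ = K⟮x⟯) (hP : IsPointDatum Ψ y V δ E) :
    {v : Place K F | 0 < v.ord y}.ncard = orb (G ⧸ H) δ := by
  classical
  haveI : Fintype (G ⧸ H) := Fintype.ofFinite _
  haveI : IsFF1 K F := IsFF1.of_exists x
  have hy : y ∈ K⟮x⟯ := hxy ▸ mem_adjoin_simple_self K y
  have hty : Transcendental K y := by
    intro halg
    apply hx
    have h1 : Algebra.IsAlgebraic K K⟮y⟯ :=
      IntermediateField.isAlgebraic_adjoin_simple halg.isIntegral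
    have h2 : x ∈ K⟮y⟯ := hxy ▸ mem_adjoin_simple_self K x
    have h3 := h1.isAlgebraic (⟨x, h2⟩ : K⟮y⟯)
    exact (isAlgebraic_algebraMap_iff (algebraMap K⟮y⟯ F).injective).mpr h3
  obtain ⟨s, hs, hsum⟩ := exists_finset_ord_pos y hty
  have hset : {v : Place K F | 0 < v.ord y} = (s : Set (Place K F)) := by
    ext v
    simp [hs]
  rw [hset, Set.ncard_coe_finset, orb]
  choose pl hpl using exists_place hU hP hx hxy
  -- invariance of `pl` under `δ`
  have hinv : ∀ g ∈ Subgroup.zpowers δ, ∀ q, pl (g • q) = pl q := by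
    let S : Subgroup G :=
      { carrier := {g | ∀ q, pl (g • q) = pl q}
        mul_mem' := fun {a b} ha hb q => by rw [mul_smul, ha, hb]
        one_mem' := fun q => by rw [one_smul]
        inv_mem' := fun {a} ha q => by
          have := ha (a⁻¹ • q)
          rw [smul_inv_smul] at this
          exact this.symm }
    have hδ : δ ∈ S := by
      intro q
      apply Place.ext
      rw [hpl, hpl]
      ext f
      rw [Valuation.mem_valuationSubring_iff, Valuation.mem_valuationSubring_iff, W_smul hU hP]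
    intro g hg
    exact (Subgroup.zpowers_le.mpr hδ) hg
  rw [Nat.card_eq_fintype_card, eq_comm]
  have hper : ∀ q : G ⧸ H, 0 < Function.minimalPeriod (δ • ·) q := fun q =>
    Function.minimalPeriod_pos_of_mem_periodicPts
      ((Function.Injective.mem_periodicPts (MulAction.injective δ) q))
  have hpow : ∀ q : G ⧸ H, δ ^ (Function.minimalPeriod (δ • ·) q) • q = q := fun q =>
    MulAction.pow_smul_eq_iff_minimalPeriod_dvd.mpr dvd_rfl
  refine card_eq_of_squeeze s (fun ω => pl ω.out) ?_ ?_ (fun v => v.ord y) ?_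
    (fun ω => (Function.minimalPeriod (δ • ·) ω.out : ℤ)) ?_ ?_
  · intro ω
    rw [hs]
    exact (ord_le_of_pow_smul_eq hU hP hy _ _ (hpl _) (hper _) (hpow _)).1
  · intro v hv
    obtain ⟨q, hq⟩ := exists_conj_of_place hU hP hx hxy v ((hs v).mp hv)
    refine ⟨Quotient.mk'' q, ?_⟩
    have h1 : (Quotient.mk'' q : MulAction.orbitRel.Quotient (Subgroup.zpowers δ) (G ⧸ H)).out
        ∈ MulAction.orbit (Subgroup.zpowers δ) q := by
      have := Quotient.mk_out (s := MulAction.orbitRel (Subgroup.zpowers δ) (G ⧸ H)) q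
      exact this
    obtain ⟨⟨g, hg⟩, hg'⟩ := h1
    have h2 : pl (Quotient.mk'' q :
        MulAction.orbitRel.Quotient (Subgroup.zpowers δ) (G ⧸ H)).out = pl q := by
      rw [← hg']
      exact hinv g hg q
    refine h2.trans ?_
    apply Place.ext
    rw [hpl, hq]
  · intro v hv
    exact (hs v).mp hv
  · intro ω
    exact (ord_le_of_pow_smul_eq hU hP hy _ _ (hpl _) (hper _) (hpow _)).2
  · rw [hsum, hxy, finrank_eq_index' hU, Subgroup.index, Nat.card_eq_fintype_card,
      Fintype.card_congr (MulAction.selfEquivSigmaOrbits (Subgroup.zpowers δ) (G ⧸ H)),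
      Fintype.card_sigma]
    push_cast
    apply Finset.sum_congr rfl
    intro ω _
    rw [MulAction.minimalPeriod_eq_card]
    congr 1

end Fermat.Agent.S24.CL
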